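import Fermat.Agent.Ribet.H523.Q3Spec
import Fermat.Agent.Ribet.H398.HeckeFun
import Fermat.Agent.Ribet.H997.RedField
import Fermat.Agent.A2.H708.GaussInfModular

/-!
# Row 37, WALL-q, leaf KRON-FIELD of `Ribet/H523/Q3Spec.lean`   (helper708, subtask 735)

`kronField : H523.Q3.KronFieldStatement` — for `A` over the prime `q ∤ M`, `k = kA A`, and a prime
`ℓ ∤ M`, the formal Kronecker norm `kronNorm ℓ` preserves `F_k = modularFunctionFieldFullC k M`.

Proof by lifting (no correspondence in characteristic `q` is needed):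

* `exists_lift_of_mem_adjoin` : every element of `Algebra.adjoin k {j̄(t^d) : d ∣ M}` is the
  reduction `red A U` of an `A`-integral series `U` with `incl A U ∈ ℚ̄(X₀(M))`;
* `kronNorm_red_mem` : for such `U` with `red A U ≠ 0`, `kronNorm ℓ (incl A U) = incl A (kronNorm ℓ U)`
  is a function of level `M` (`H398.heckeFun`), and `kronNorm ℓ (red A U) = red A (kronNorm ℓ U)`
  is a reduction of it (`coeffMap_kronNorm`), hence lies in `F_k` (`H997.isRedSer_mem_of_good`);
* `kronNorm_mem_fullC` : a general `u ∈ F_k` is a quotient `r / s` of elements of the subalgebra;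
  `kronNorm` is multiplicative and `kronNorm ℓ s ≠ 0`.

The hypothesis `ℓ ≠ q` of the statement is not used.
-/

set_option autoImplicit false
set_option linter.unusedSectionVars false
set_option linter.unusedVariables false
set_option linter.style.haveILetI false
set_option synthInstance.maxHeartbeats 400000
set_option maxHeartbeats 1600000

noncomputable section

namespace Fermat.Agent.Ribet.H708

open AlgebraicCurve ModularCurve HahnSeries
open Fermat.Agent.S24 Fermat.Agent.A2.H708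
open Fermat.Agent.Ribet.H884
open Fermat.Agent.S37.H400

/-! ## Generalities on `kronNorm` -/

theorem kronNorm_zero_h708 {R : Type*} [CommRing R] (ℓ : ℕ) [NeZero ℓ] :
    kronNorm ℓ (0 : LaurentSeries R) = 0 := by
  show qExpand R ℓ (0 : LaurentSeries R) * _ = 0
  rw [map_zero, zero_mul]

/-- Over a field the Kronecker norm of a nonzero series is nonzero. -/
theorem kronNorm_ne_zero_h708 {k : Type*} [Field k] (ℓ : ℕ) [NeZero ℓ] {f : LaurentSeries k}
    (hf : f ≠ 0) : kronNorm ℓ f ≠ 0 := by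
  intro h0
  have h1 : kronNorm ℓ (f * f⁻¹) = 1 := by rw [mul_inv_cancel₀ hf, kronNorm_one]
  rw [kronNorm_mul, h0, zero_mul] at h1
  exact zero_ne_one h1

/-- `kronNorm` of a quotient. -/
theorem kronNorm_div_h708 {k : Type*} [Field k] (ℓ : ℕ) [NeZero ℓ] (r s : LaurentSeries k)
    (hs : s ≠ 0) : kronNorm ℓ (r / s) = kronNorm ℓ r / kronNorm ℓ s := by
  rw [eq_div_iff (kronNorm_ne_zero_h708 ℓ hs), ← kronNorm_mul, div_mul_cancel₀ r hs]

/-! ## Lifting the subalgebra generated by the `j̄(t^d)` -/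

section Lift

variable (A : ValuationSubring Kbar) (M : ℕ) [NeZero M]

/-- Every element of the `k`-subalgebra generated by the `j̄(t^d)`, `d ∣ M`, is the reduction of
an `A`-integral series which is a function of level `M`. -/
theorem exists_lift_of_mem_adjoin {r : LaurentSeries (kA A)}
    (hr : r ∈ Algebra.adjoin (kA A) (divisorExpansionsC (kA A) M)) :
    ∃ U : LaurentSeries A, red A U = r ∧ incl A U ∈ modularFunctionFieldBar M := by
  induction hr using Algebra.adjoin_induction with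
  | mem x hx =>
    obtain ⟨d, hd0, hd, rfl⟩ := hx
    haveI : NeZero d := hd0
    refine ⟨castA A (jInt d), ?_, ?_⟩
    · show coeffMap (IsLocalRing.residue A) (coeffMap (Int.castRingHom A) (jqNModC ℤ d)) = _
      rw [coeffMap_jqNModC, coeffMap_jqNModC]
      rfl
    · rw [incl_castA, castQ_jInt]
      exact coeffEmb_mem_laurentBaseChange Kbar (jqd_mem_full M hd)
  | algebraMap c =>
    obtain ⟨a, rfl⟩ := IsLocalRing.residue_surjective c
    refine ⟨cstA A a, ?_, ?_⟩
    · rw [red_cstA, algebraMap_laurentSeries_eq_single]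
    · rw [incl_cstA]
      exact (modularFunctionFieldBar M).algebraMap_mem _
  | add x y _ _ hx hy =>
    obtain ⟨U, rfl, hU⟩ := hx
    obtain ⟨V, rfl, hV⟩ := hy
    exact ⟨U + V, map_add _ _ _, by rw [map_add]; exact add_mem hU hV⟩
  | mul x y _ _ hx hy =>
    obtain ⟨U, rfl, hU⟩ := hx
    obtain ⟨V, rfl, hV⟩ := hy
    exact ⟨U * V, map_mul _ _ _, by rw [map_mul]; exact mul_mem hU hV⟩

end Lift

/-! ## The Kronecker norm of a reduction -/

section Red

variable {A : ValuationSubring Kbar} {M q : ℕ} [NeZero M]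

/-- If `U` is `A`-integral, of level `M`, with nonzero reduction, then `kronNorm ℓ (red A U)` lies
in `k(X₀(M))`. -/
theorem kronNorm_red_mem (hq : q.Prime) (hqM : ¬ q ∣ M) (hA : A.LiesOverPrime q)
    (ℓ : ℕ) [NeZero ℓ] (hℓ : ℓ.Prime) (hℓM : ¬ ℓ ∣ M) (U : LaurentSeries A)
    (hU : incl A U ∈ modularFunctionFieldBar M) (hU0 : red A U ≠ 0) :
    kronNorm ℓ (red A U) ∈ modularFunctionFieldFullC (kA A) M := by
  -- the function-level Hecke operator preserves `ℚ̄(X₀(M))`
  haveI : NeZero (((⟨ℓ, hℓ⟩ : Nat.Primes) : ℕ)) := ‹NeZero ℓ›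
  obtain ⟨g, hg, -⟩ := Fermat.Agent.Ribet.H398.heckeFun M ⟨ℓ, hℓ⟩ hℓM ⟨incl A U, hU⟩
  have hg' : (g : LaurentSeries Kbar) = incl A (kronNorm ℓ U) := by
    rw [hg]
    exact (coeffMap_kronNorm A.subtype ℓ U).symm
  have hx : incl A (kronNorm ℓ U) ∈ modularFunctionFieldBar M := by
    rw [← hg']
    exact g.2
  have hred : red A (kronNorm ℓ U) = kronNorm ℓ (red A U) :=
    coeffMap_kronNorm (IsLocalRing.residue A) ℓ U
  have h1 : red A (kronNorm ℓ U) ≠ 0 := by
    rw [hred]
    exact kronNorm_ne_zero_h708 ℓ hU0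
  have hser : Fermat.Agent.Ribet.H997.IsRedSer A (incl A (kronNorm ℓ U))
      (kronNorm ℓ (red A U)) := by
    refine ⟨1, kronNorm ℓ U, 1, one_ne_zero, h1, ?_, ?_, ?_⟩
    · rw [map_one]
      exact one_ne_zero
    · rw [map_one, mul_one, cst_one, one_mul]
    · rw [map_one, mul_one, hred]
  exact Fermat.Agent.Ribet.H997.isRedSer_mem_of_good hq hqM hA hx hser

/-- **KRON-FIELD**, membership form. -/
theorem kronNorm_mem_fullC (hq : q.Prime) (hqM : ¬ q ∣ M) (hA : A.LiesOverPrime q)
    (ℓ : ℕ) [NeZero ℓ] (hℓ : ℓ.Prime) (hℓM : ¬ ℓ ∣ M) {u : LaurentSeries (kA A)}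
    (hu : u ∈ modularFunctionFieldFullC (kA A) M) :
    kronNorm ℓ u ∈ modularFunctionFieldFullC (kA A) M := by
  obtain ⟨r, hr, s, hs, rfl⟩ := IntermediateField.mem_adjoin_iff_div.mp hu
  by_cases hs0 : s = 0
  · rw [hs0, div_zero, kronNorm_zero_h708]
    exact zero_mem _
  by_cases hr0 : r = 0
  · rw [hr0, zero_div, kronNorm_zero_h708]
    exact zero_mem _
  obtain ⟨U, hU, hUm⟩ := exists_lift_of_mem_adjoin A M hr
  obtain ⟨V, hV, hVm⟩ := exists_lift_of_mem_adjoin A M hs
  rw [kronNorm_div_h708 ℓ r s hs0]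
  refine div_mem ?_ ?_
  · rw [← hU]
    exact kronNorm_red_mem hq hqM hA ℓ hℓ hℓM U hUm (by rw [hU]; exact hr0)
  · rw [← hV]
    exact kronNorm_red_mem hq hqM hA ℓ hℓ hℓM V hVm (by rw [hV]; exact hs0)

end Red

/-- **KRON-FIELD** (`H523.Q3.KronFieldStatement`, verbatim). -/
theorem kronField : Fermat.Agent.Ribet.H523.Q3.KronFieldStatement := by
  intro q M _ hq hqM A hA ℓ _ hℓ hℓM _ u
  exact ⟨⟨kronNorm ℓ (u : LaurentSeries (kA A)),
    kronNorm_mem_fullC hq hqM hA ℓ hℓ hℓM u.2⟩, rfl⟩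

end Fermat.Agent.Ribet.H708

end
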