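import Mathlib

/-!
# Roots of constants in `k((t))` are constants   (helper708; Mathlib only)

`k` algebraically closed, `y ∈ k((t))` with `y ^ m = c ∈ k` (`m ≠ 0`): then `y ∈ k`.
(The polynomial `X ^ m - c` splits over `k`, and `k((t))` is a domain.)  No hypothesis on the
characteristic.  Used to pass from modulus `p ^ n` to modulus `p` in RED-pow (Q3-pow).
-/

set_option autoImplicit false

namespace Fermat.Agent.Ribet.H708

open Polynomial

/-- Generic form: in a domain `L` receiving an algebraically closed field `k`, an `m`-th root of a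
constant is a constant. -/
theorem h708_const_of_pow_eq_map {k L : Type*} [Field k] [IsAlgClosed k] [CommRing L]
    [IsDomain L] (φ : k →+* L) {m : ℕ} (hm : m ≠ 0) {y : L} {c : k}
    (h : y ^ m = φ c) : ∃ c' : k, c' ^ m = c ∧ y = φ c' := by
  classical
  set P : k[X] := X ^ m - C c with hP
  have hPne : P ≠ 0 := X_pow_sub_C_ne_zero (Nat.pos_of_ne_zero hm) c
  have hsplit : P.Splits := IsAlgClosed.splits P
  have hroot : (P.map φ).IsRoot y := by
    rw [IsRoot, eval_map, hP]
    simp [h]
  have hmapne : P.map φ ≠ 0 := (Polynomial.map_ne_zero_iff φ.injective).mpr hPne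
  have hmem : y ∈ (P.map φ).roots := (mem_roots hmapne).mpr hroot
  rw [hsplit.roots_map] at hmem
  obtain ⟨c', hc', rfl⟩ := Multiset.mem_map.mp hmem
  refine ⟨c', ?_, rfl⟩
  have h2 : P.IsRoot c' := (mem_roots hPne).mp hc'
  rw [IsRoot, hP] at h2
  simpa [sub_eq_zero] using h2

/-- In `k((t))`, `k` algebraically closed: `y ^ m = C c` implies `y = C c'`. -/
theorem h708_const_of_pow_eq_C {k : Type*} [Field k] [IsAlgClosed k] {m : ℕ} (hm : m ≠ 0)
    {y : LaurentSeries k} {c : k} (h : y ^ m = HahnSeries.C c) :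
    ∃ c' : k, c' ^ m = c ∧ y = HahnSeries.C c' :=
  h708_const_of_pow_eq_map (k := k) (L := HahnSeries ℤ k) HahnSeries.C hm h

/-- Quotient form: `u ^ m = C c * v ^ m`, `v ≠ 0` implies `u = C c' * v`. -/
theorem h708_eq_C_mul_of_pow_eq {k : Type*} [Field k] [IsAlgClosed k] {m : ℕ} (hm : m ≠ 0)
    {u v : LaurentSeries k} {c : k} (hv : v ≠ 0) (h : u ^ m = HahnSeries.C c * v ^ m) :
    ∃ c' : k, c' ^ m = c ∧ u = HahnSeries.C c' * v := by
  have h1 : (u / v) ^ m = HahnSeries.C c := by
    rw [div_pow, h, mul_div_assoc, div_self (pow_ne_zero m hv), mul_one]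
  obtain ⟨c', hc', h2⟩ := h708_const_of_pow_eq_C hm h1
  exact ⟨c', hc', by rw [← h2, div_mul_cancel₀ _ hv]⟩

end Fermat.Agent.Ribet.H708
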