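import Fermat.Agent.Ribet.H708.Q3Pow
import Fermat.Agent.Ribet.H343.Q3Closed

/-!
# Row 37 HARD / IA-OLD, POW-leaf **Q3-pow**: CLOSED, unconditional   (helper708)

`q3Pow : H580.IAOld.Q3PowStatement` = `H708.Q3Pow.q3Pow_of` (RED-CLASS at modulus `p ^ n`,
`Ribet/H708/Q3Pow.lean`) applied to `H343.eigenLift : H523.Q3.EigenLiftStatement`
(EIGEN-LIFT at all levels: GR-SURJ H937/H343, KUM-RED H579, KRON-FIELD H708, EIGEN-LIFT-3 H924).
-/

set_option autoImplicit false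

namespace Fermat.Agent.Ribet.H708.Q3Pow

/-- **(Q3-pow)**, verbatim, unconditional. -/
theorem q3Pow : Fermat.Agent.Ribet.H580.IAOld.Q3PowStatement :=
  q3Pow_of Fermat.Agent.Ribet.H343.eigenLift

end Fermat.Agent.Ribet.H708.Q3Pow
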