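import Fermat.Agent.Ribet.H580.IAOldGood
import Fermat.Agent.Ribet.H708.Q3PowClosed
import Fermat.Agent.Ribet.H765.EisQClosed
import Fermat.Agent.Ribet.H818.FrobAL

/-!
# Row 37 (HARD), IA-OLD at good levels: CLOSED (helper708)

All three inputs of `H580.IAOld.iaOldGood_of_good` are on main:

* FROB-AL : `H818.q2Good : H158.WallQ.Q2GoodStatement`;
* RED at modulus `p ^ n` : `H708.Q3Pow.q3Pow : H580.IAOld.Q3PowStatement`;
* EIS-q, structural, modulus `p ^ n` : `H765.eisSlopeQStructGood`.

Hence **`iaOldGood708 : H580.IAOld.IAOldGoodStatement`**, UNCONDITIONAL: for `p ≥ 5`, `q ≠ 2, p`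
prime, `q ∤ M'`, at good levels (`5 ≤ q`, or `q = 3` and `2 ∣ M'`), a non-Eisenstein Hecke
eigen-system of level `q M'` over a complete DVR whose Galois representation is absolutely
irreducible modulo `p` and UNRAMIFIED at `q` is `Lowered` to level `M'`.
-/

set_option autoImplicit false

namespace Fermat.Agent.Ribet.H708.IAOld

/-- **IA-OLD at good levels**, VERBATIM `H580.IAOld.IAOldGoodStatement`, UNCONDITIONAL. -/
theorem iaOldGood708 : Fermat.Agent.Ribet.H580.IAOld.IAOldGoodStatement :=
  Fermat.Agent.Ribet.H580.IAOld.iaOldGood_of_good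
    Fermat.Agent.Ribet.H818.q2Good
    Fermat.Agent.Ribet.H708.Q3Pow.q3Pow
    Fermat.Agent.Ribet.H765.eisSlopeQStructGood

end Fermat.Agent.Ribet.H708.IAOld
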