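import Fermat.Agent.Ribet.H580.IAOldSpec
import Fermat.Agent.Ribet.H523.Q3Spec
import Fermat.Agent.Ribet.H944.Closed
import Fermat.Agent.Ribet.H944.KumEig
import Fermat.Agent.Ribet.H376.I2Leaves
import Fermat.Agent.Ribet.H997.RedField
import Fermat.Agent.Ribet.H939.ResField
import Fermat.Agent.Ribet.H708.ConstRoot
import Fermat.Agent.Ribet.H708.KronField

/-!
# Row 37 HARD / IA-OLD, POW-leaf **Q3-pow** (RED at modulus `p ^ n`)   (helper708, subtask 748)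

Spec: `Ribet/H580/IAOldSpec.lean` (`Q3PowStatement`), `Ribet/H523/Q3Spec.lean` (`IsRedEigen`,
`EigenLiftStatement`).

## Result
* `redEigenQPow : RedEigenQPowStatement` (UNCONDITIONAL): for `m = p ^ n`, a class
  `x ∈ 𝓕_n ∖ 𝒮_n` (`𝓕_n = finPartQ m`, `𝒮_n = splitPartQ m`) with `p • x ∈ 𝒮_n` and
  `T_ℓ x - a_ℓ x ∈ 𝒮_n` (`ℓ ∉ S`) produces `h ∈ F_k = k(X₀(M'))` with
  `H523.Q3.IsRedEigen p M' S' a h` (modulus `p`!), `S' = S ∪ primeFactors (q M')`.
* `q3Pow_of : H523.Q3.EigenLiftStatement → H580.IAOld.Q3PowStatement`.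

## Proof of `redEigenQPow`
`x` has a Kummer generator `f` (`div f = m·D`) with reductions `r₁, r₂` (`PDivSeries m`) (CLOSED).
* GEN-INDEP for `𝒮_n` (`pPow_of_mem_splitSetQ`): every reduction of every Kummer generator of a
  class of `𝒮_n` is `c·g^m`, `g ∈ F_k` (two Kummer generators differ by `c·G^m`; REDEX, REDFIELD,
  REDUNIQ at the prime `q`).
* `p • x ∈ 𝒮_n`, Kummer generator `f ^ p`: `r_i ^ p = c_i · h_i ^ m = c_i · (h_i ^ P) ^ p`,
  `P = p ^ (n-1)`; roots of constants are constants (`ConstRoot`, `k` algebraically closed):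
  `r_i = c_i' · h_i ^ P`.
* `x ∉ 𝒮_n`: one of the `h_i` is not `c·u^p` (otherwise `r_i = c·u_i^m`, `f` split).
* `T_ℓ x - a_ℓ x ∈ 𝒮_n`, Kummer generator `Nm_α(β f) · f^{-a_ℓ}` (`heckeOperatorBar_mk`), reductions
  `kronNorm ℓ r_i · r_i^{-a_ℓ}` (HECKE-RED, FRICKE-HECKE): `= c · w^m`; with `r_i = c_i' h_i^P`:
  `(kronNorm ℓ h_i · h_i^{-a_ℓ} · w^{-p}) ^ P` is a constant, hence
  `kronNorm ℓ h_i = c · h_i^{a_ℓ} · w^p`  (`KronEigen`).
* `p ∣ ord_Q h_i`: `m ∣ ord_Q r_i = P · ord_Q h_i`.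
-/

set_option autoImplicit false
set_option linter.unusedSectionVars false
set_option linter.unusedVariables false
set_option linter.style.haveILetI false
set_option synthInstance.maxHeartbeats 400000
set_option maxHeartbeats 1600000

noncomputable section

namespace Fermat.Agent.Ribet.H708.Q3Pow

open AlgebraicCurve ModularCurve HahnSeries
open Fermat.Agent.S24 Fermat.Agent.A2.H708 Fermat.Agent.A2.H528
open Fermat.Agent.Ribet.Spec Fermat.Agent.Ribet.H944.Wall Fermat.Agent.Ribet.H884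
open Fermat.Agent.Ribet.H158.WallQ
open Fermat.Agent.S37.H400
open Fermat.Agent.Ribet.H523.Q3
open Fermat.Agent.Ribet.H580.IAOld
open Fermat.Agent.Ribet.H944

/-! ## `PPowSeries` is multiplicative -/

section PPow

variable {m M' : ℕ} {k : Type} [Field k]

theorem pPow_one : PPowSeries m M' (1 : LaurentSeries k) :=
  ⟨1, 1, one_ne_zero, one_ne_zero, by
    rw [map_one, one_mul]
    show (1 : LaurentSeries k) = (1 : LaurentSeries k) ^ m
    rw [one_pow]⟩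

theorem pPow_mul {r s : LaurentSeries k} (hr : PPowSeries m M' r) (hs : PPowSeries m M' s) :
    PPowSeries m M' (r * s) := by
  obtain ⟨c, h, hc, hh, rfl⟩ := hr
  obtain ⟨d, g, hd, hg, rfl⟩ := hs
  refine ⟨c * d, h * g, mul_ne_zero hc hd, mul_ne_zero hh hg, ?_⟩
  have e : ((h * g : modularFunctionFieldFullC k M') : LaurentSeries k) =
      (h : LaurentSeries k) * (g : LaurentSeries k) := rfl
  rw [e, map_mul, mul_pow]
  ring

theorem pPow_inv {r : LaurentSeries k} (hr : PPowSeries m M' r) : PPowSeries m M' r⁻¹ := by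
  obtain ⟨c, h, hc, hh, rfl⟩ := hr
  refine ⟨c⁻¹, h⁻¹, inv_ne_zero hc, inv_ne_zero hh, ?_⟩
  have e : ((h⁻¹ : modularFunctionFieldFullC k M') : LaurentSeries k) =
      (h : LaurentSeries k)⁻¹ := rfl
  rw [e, map_inv₀, mul_inv, inv_pow]

/-- A constant times the `m`-th power of a series of `F_k`. -/
theorem pPow_of_eq {r g : LaurentSeries k} {c : k} (hc : c ≠ 0) (hg0 : g ≠ 0)
    (hg : g ∈ modularFunctionFieldFullC k M') (h : r = HahnSeries.C c * g ^ m) :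
    PPowSeries m M' r :=
  ⟨c, ⟨g, hg⟩, hc, fun h0 => hg0 (congrArg Subtype.val h0), h⟩

end PPow

/-! ## The sets `finSetQ`, `splitSetQ` are subgroups -/

section Closed

variable {m q M' : ℕ} [NeZero (q * M')] {A : ValuationSubring Kbar}

theorem isRedZero_one' : IsRedZero (q * M') A (1 : FF (q * M')) 1 := by
  show IsRedInf (q * M') A (wF (q * M') 1) 1
  rw [map_one]
  exact I2.isRedInf_one (q * M') A

theorem isRedZero_mul' {f g : FF (q * M')} {r s : LaurentSeries (kA A)}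
    (hf : IsRedZero (q * M') A f r) (hg : IsRedZero (q * M') A g s) :
    IsRedZero (q * M') A (f * g) (r * s) := by
  show IsRedInf (q * M') A (wF (q * M') (f * g)) (r * s)
  rw [map_mul]
  exact I2.isRedInf_mul (q * M') A hf hg

theorem isRedZero_inv' {f : FF (q * M')} {r : LaurentSeries (kA A)}
    (hf : IsRedZero (q * M') A f r) : IsRedZero (q * M') A f⁻¹ r⁻¹ := by
  show IsRedInf (q * M') A (wF (q * M') f⁻¹) r⁻¹
  rw [map_inv₀]
  exact I2.isRedInf_inv (q * M') A hf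

theorem isRedZero_pow' {f : FF (q * M')} {r : LaurentSeries (kA A)}
    (hf : IsRedZero (q * M') A f r) (n : ℕ) : IsRedZero (q * M') A (f ^ n) (r ^ n) := by
  show IsRedInf (q * M') A (wF (q * M') (f ^ n)) (r ^ n)
  rw [map_pow]
  exact I2.isRedInf_pow (q * M') A hf n

theorem isRedZero_zpow' {f : FF (q * M')} {r : LaurentSeries (kA A)}
    (hf : IsRedZero (q * M') A f r) (a : ℤ) : IsRedZero (q * M') A (f ^ a) (r ^ a) := by
  show IsRedInf (q * M') A (wF (q * M') (f ^ a)) (r ^ a)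
  rw [map_zpow₀]
  exact I2.isRedInf_zpow (q * M') A hf a

theorem mem_finSetQ_of_mem_finPartQ {x : JZero (q * M')} (hx : x ∈ finPartQ m q M' A) :
    x ∈ finSetQ m q M' A := by
  change x ∈ AddSubgroup.closure (finSetQ m q M' A) at hx
  induction hx using AddSubgroup.closure_induction with
  | mem x hx => exact hx
  | zero =>
    exact ⟨1, I2.isKummerGen_one _ _, 1, 1, I2.isRedInf_one _ A, isRedZero_one',
      I2.pDivSeries_one _ _, I2.pDivSeries_one _ _⟩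
  | add x y _ _ hx hy =>
    obtain ⟨f, hf, r₁, r₂, h1, h2, h3, h4⟩ := hx
    obtain ⟨f', hf', r₁', r₂', h1', h2', h3', h4'⟩ := hy
    exact ⟨f * f', I2.isKummerGen_mul _ _ hf hf', r₁ * r₁', r₂ * r₂',
      I2.isRedInf_mul _ A h1 h1', isRedZero_mul' h2 h2', I2.pDivSeries_mul _ _ h3 h3',
      I2.pDivSeries_mul _ _ h4 h4'⟩
  | neg x _ hx =>
    obtain ⟨f, hf, r₁, r₂, h1, h2, h3, h4⟩ := hx
    exact ⟨f⁻¹, I2.isKummerGen_inv _ _ hf, r₁⁻¹, r₂⁻¹, I2.isRedInf_inv _ A h1,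
      isRedZero_inv' h2, I2.pDivSeries_inv _ _ h3, I2.pDivSeries_inv _ _ h4⟩

theorem mem_splitSetQ_of_mem_splitPartQ {x : JZero (q * M')}
    (hx : x ∈ splitPartQ m q M' A) : x ∈ splitSetQ m q M' A := by
  change x ∈ AddSubgroup.closure (splitSetQ m q M' A) at hx
  induction hx using AddSubgroup.closure_induction with
  | mem x hx => exact hx
  | zero =>
    exact ⟨1, I2.isKummerGen_one _ _, 1, 1, I2.isRedInf_one _ A, isRedZero_one',
      pPow_one, pPow_one⟩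
  | add x y _ _ hx hy =>
    obtain ⟨f, hf, r₁, r₂, h1, h2, h3, h4⟩ := hx
    obtain ⟨f', hf', r₁', r₂', h1', h2', h3', h4'⟩ := hy
    exact ⟨f * f', I2.isKummerGen_mul _ _ hf hf', r₁ * r₁', r₂ * r₂',
      I2.isRedInf_mul _ A h1 h1', isRedZero_mul' h2 h2', pPow_mul h3 h3', pPow_mul h4 h4'⟩
  | neg x _ hx =>
    obtain ⟨f, hf, r₁, r₂, h1, h2, h3, h4⟩ := hx
    exact ⟨f⁻¹, I2.isKummerGen_inv _ _ hf, r₁⁻¹, r₂⁻¹, I2.isRedInf_inv _ A h1,
      isRedZero_inv' h2, pPow_inv h3, pPow_inv h4⟩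

end Closed

/-! ## Kummer generators -/

section Kummer

variable {N : ℕ} [NeZero N] {m : ℕ}

theorem isKummerGen_pow {f : FF N} {x : JZero N} (hf : IsKummerGen N m f x) (n : ℕ) :
    IsKummerGen N m (f ^ n) (n • x) := by
  induction n with
  | zero =>
    rw [pow_zero, zero_nsmul]
    exact I2.isKummerGen_one N m
  | succ n ih =>
    rw [pow_succ, succ_nsmul]
    exact I2.isKummerGen_mul N m ih hf

theorem isKummerGen_zpow {f : FF N} {x : JZero N} (hf : IsKummerGen N m f x) (a : ℤ) :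
    IsKummerGen N m (f ^ a) (a • x) := by
  rcases a with n | n
  · have := isKummerGen_pow hf n
    simpa using this
  · rw [zpow_negSucc, negSucc_zsmul]
    exact I2.isKummerGen_inv N m (isKummerGen_pow hf (n + 1))

/-- Two Kummer generators of the same class differ by a constant and an `m`-th power. -/
theorem kummerGen_ratio {f g : FF N} {x : JZero N} (hf : IsKummerGen N m f x)
    (hg : IsKummerGen N m g x) :
    ∃ (c : Kbar) (G : FF N), c ≠ 0 ∧ G ≠ 0 ∧ f = algebraMap Kbar (FF N) c * g * G ^ m := by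
  obtain ⟨hf0, D, hDx, hD⟩ := hf
  obtain ⟨hg0, E, hEx, hE⟩ := hg
  have he : Pic0.mk D = Pic0.mk E := by rw [hDx, hEx]
  obtain ⟨G, hG0, hG⟩ := Fermat.Agent.S29.H395.mk_eq_mk_iff.mp he
  have hGm0 : G ^ m ≠ 0 := pow_ne_zero _ hG0
  set u : FF N := f * g⁻¹ * (G ^ m)⁻¹ with hu
  have hu0 : u ≠ 0 := mul_ne_zero (mul_ne_zero hf0 (inv_ne_zero hg0)) (inv_ne_zero hGm0)
  have hou : ∀ v : Place Kbar (FF N), v.ord u = 0 := by
    intro v
    rw [hu, v.ord_mul (mul_ne_zero hf0 (inv_ne_zero hg0)) (inv_ne_zero hGm0),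
      v.ord_mul hf0 (inv_ne_zero hg0), v.ord_inv, v.ord_inv,
      Fermat.Agent.Ribet.H801.ord_pow_nat, hD v, hE v, ← hG v]
    ring
  obtain ⟨c, hc⟩ := Fermat.Agent.Ribet.H801.constOfOrdZero_bar N u hu0 hou
  have hc0 : c ≠ 0 := by
    rintro rfl
    rw [map_zero] at hc
    exact hu0 hc
  refine ⟨c, G, hc0, hG0, ?_⟩
  rw [← hc, hu]
  field_simp

/-- The Hecke norm of a Kummer generator of `x` is a Kummer generator of `T_ℓ x`. -/
theorem isKummerGen_hNorm {f : FF N} {x : JZero N} (hf : IsKummerGen N m f x)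
    (ℓ : ℕ) [NeZero ℓ] (hℓ : ℓ.Prime) :
    IsKummerGen N m (I2.hNorm N ℓ f) (heckeOperatorBar N ⟨ℓ, hℓ⟩ x) := by
  obtain ⟨hf0, D, rfl, hD⟩ := hf
  have hHI : HeckeInputsAlong (AlgebraicClosure ℚ) N ℓ :=
    Fermat.Agent.Lib.FF460.heckeInputsAlong_bar N ℓ
  obtain ⟨D', hD', hD'ord⟩ := Fermat.Agent.S29.H395.heckeOperatorBar_mk N ⟨ℓ, hℓ⟩ hHI D
  refine ⟨Fermat.Agent.S29.H395.heckeNorm_ne_zero N ℓ hHI hf0, D', hD'.symm, fun v => ?_⟩
  exact (hD'ord (m : ℤ) f hf0 (fun v => (hD v).symm) v).symm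

end Kummer

/-! ## GEN-INDEP for the split part -/

section GenIndep

variable {m q M' : ℕ} [NeZero M'] [NeZero q] [NeZero (q * M')] {A : ValuationSubring Kbar}

/-- If `F = c · f₂ · G ^ m`, `f₂` has a reduction `c'·h^m` and `G` a reduction in `F_k`, then
every reduction of `F` is `c''·H^m`. -/
theorem pPow_of_factor (hq : q.Prime) (hA : A.LiesOverPrime q)
    {F f₂ G : FF (q * M')} {c : Kbar} (hc : c ≠ 0)
    (hF : F = algebraMap Kbar (FF (q * M')) c * f₂ * G ^ m)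
    {s g r : LaurentSeries (kA A)} (hs : IsRedInf (q * M') A f₂ s) (hsP : PPowSeries m M' s)
    (hg : IsRedInf (q * M') A G g) (hgF : g ∈ modularFunctionFieldFullC (kA A) M')
    (hr : IsRedInf (q * M') A F r) : PPowSeries m M' r := by
  have h1 : IsRedInf (q * M') A F (1 * s * g ^ m) := by
    rw [hF]
    exact I2.isRedInf_mul _ A (I2.isRedInf_mul _ A (I2.isRedInf_const _ A hc) hs)
      (I2.isRedInf_pow _ A hg m)
  obtain ⟨-, c', hc', hr'⟩ := Fermat.Agent.Ribet.H997.redUnique q (q * M') hq A hA F _ r h1 hr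
  obtain ⟨d, h, hd, hh, rfl⟩ := hsP
  have hg0 : g ≠ 0 := (I2.isRedInf_ne_zero _ A hg).2
  have hh0 : (h : LaurentSeries (kA A)) ≠ 0 := fun e => hh (Subtype.ext e)
  refine pPow_of_eq (c := c' * d) (g := (h : LaurentSeries (kA A)) * g) (mul_ne_zero hc' hd)
    (mul_ne_zero hh0 hg0) (mul_mem h.2 hgF) ?_
  rw [hr', map_mul, mul_pow]
  ring

/-- **GEN-INDEP (𝒮)**: every reduction (on both components) of every Kummer generator of a class of
`splitSetQ m` is a constant times an `m`-th power of `F_k`. -/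
theorem pPow_of_mem_splitSetQ (hq : q.Prime) (hqM : ¬ q ∣ M') (hA : A.LiesOverPrime q)
    {x : JZero (q * M')} (hx : x ∈ splitSetQ m q M' A) {F : FF (q * M')}
    (hF : IsKummerGen (q * M') m F x) :
    (∀ r : LaurentSeries (kA A), IsRedInf (q * M') A F r → PPowSeries m M' r) ∧
    (∀ r : LaurentSeries (kA A), IsRedZero (q * M') A F r → PPowSeries m M' r) := by
  obtain ⟨f₂, hf₂K, s₁, s₂, hs1, hs2, hP1, hP2⟩ := hx
  obtain ⟨c, G, hc, hG, hFeq⟩ := kummerGen_ratio hF hf₂K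
  obtain ⟨⟨g₁, hg1⟩, ⟨g₂, hg2⟩⟩ :=
    Fermat.Agent.Ribet.H997.redExists q (q * M') hq A hA G hG
  obtain ⟨k₁, hk1⟩ :=
    Fermat.Agent.Ribet.H997.redField q M' hq hqM A hA G g₁ (Or.inl hg1)
  obtain ⟨k₂, hk2⟩ :=
    Fermat.Agent.Ribet.H997.redField q M' hq hqM A hA G g₂ (Or.inr hg2)
  refine ⟨fun r hr => ?_, fun r hr => ?_⟩
  · exact pPow_of_factor hq hA hc hFeq hs1 hP1 hg1 (hk1 ▸ k₁.2) hr
  · have hFw : wF (q * M') F =
        algebraMap Kbar (FF (q * M')) c * wF (q * M') f₂ * (wF (q * M') G) ^ m := by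
      rw [hFeq, map_mul, map_mul, map_pow, AlgEquiv.commutes]
    exact pPow_of_factor hq hA hc hFw hs2 hP2 hg2 (hk2 ▸ k₂.2) hr

end GenIndep

/-! ## RED-CLASS at modulus `p ^ n` -/

/-- **RED-CLASS at modulus `p ^ n`**, quotient-eigen form: a class of `𝓕_n ∖ 𝒮_n` with `p x ∈ 𝒮_n`
and `T_ℓ x - a_ℓ x ∈ 𝒮_n` produces a Kummer function `h ∈ F_k` of a nonzero eigenclass of
`Pic⁰(F_k)[p]` (input of `H523.Q3.EigenLiftStatement`). -/
def RedEigenQPowStatement : Prop :=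
  ∀ (p q M' n : ℕ) [NeZero M'] [NeZero q] [NeZero (q * M')], p.Prime → 0 < n →
    q.Prime → ¬ q ∣ M' →
    ∀ A : ValuationSubring Kbar, A.LiesOverPrime q →
    ∀ (S : Finset ℕ) (a : ℕ → ℤ), ∀ x ∈ finPartQ (p ^ n) q M' A,
      x ∉ splitPartQ (p ^ n) q M' A →
      (∀ ℓ : Nat.Primes, (ℓ : ℕ) ∉ S →
        heckeOperatorBar (q * M') ℓ x - a ℓ • x ∈ splitPartQ (p ^ n) q M' A) →
      p • x ∈ splitPartQ (p ^ n) q M' A →
      ∃ (S' : Finset ℕ) (h : modularFunctionFieldFullC (kA A) M'),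
        S ⊆ S' ∧ IsRedEigen p M' S' a h

section Main

variable {k : Type} [Field k] [IsAlgClosed k]

/-- Extraction of a `p`-th root: `r ^ p = c · h ^ (P p)` gives `r = c' · h ^ P`. -/
theorem root_step {p P : ℕ} (hp : p ≠ 0) {r h : LaurentSeries k} {c : k} (hc : c ≠ 0)
    (hh : h ≠ 0) (e : r ^ p = HahnSeries.C c * h ^ (P * p)) :
    ∃ c' : k, c' ≠ 0 ∧ r = HahnSeries.C c' * h ^ P := by
  obtain ⟨c', hc', hr⟩ := h708_eq_C_mul_of_pow_eq (m := p) hp (u := r) (v := h ^ P) (c := c)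
    (pow_ne_zero _ hh) (by rw [e, pow_mul])
  refine ⟨c', ?_, hr⟩
  rintro rfl
  rw [zero_pow hp] at hc'
  exact hc hc'.symm

/-- The pure series step: from the eigen-relation for `r = c₀ · h ^ P` modulo `(P p)`-th powers
to the eigen-relation for `h` modulo `p`-th powers. -/
theorem kronEigen_of_pow {p P M' ℓ : ℕ} [NeZero ℓ] (hP : P ≠ 0) {a : ℤ}
    {r : LaurentSeries k} {h : modularFunctionFieldFullC k M'} {c₀ : k} (hc₀ : c₀ ≠ 0)
    (hh : h ≠ 0) (hr : r = HahnSeries.C c₀ * (h : LaurentSeries k) ^ P)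
    (hE : PPowSeries (P * p) M' (kronNorm ℓ r * r ^ (-a))) : KronEigen p M' ℓ a h := by
  obtain ⟨e, w, he, hw, heq⟩ := hE
  have hh0 : (h : LaurentSeries k) ≠ 0 := fun e => hh (Subtype.ext e)
  have hw0 : (w : LaurentSeries k) ≠ 0 := fun e => hw (Subtype.ext e)
  have hC0 : (HahnSeries.C c₀ : LaurentSeries k) ≠ 0 := by
    intro h0
    apply hc₀
    have := congrArg (fun s : LaurentSeries k => s.coeff 0) h0
    simpa using this
  have hkn0 : kronNorm ℓ (h : LaurentSeries k) ≠ 0 :=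
    Fermat.Agent.Ribet.H708.kronNorm_ne_zero_h708 ℓ hh0
  -- the relation for `u = kronNorm ℓ h * h ^ (-a)`
  set u : LaurentSeries k := kronNorm ℓ (h : LaurentSeries k) * (h : LaurentSeries k) ^ (-a)
    with hu
  set κ : LaurentSeries k := HahnSeries.C (c₀ ^ (ℓ + 1)) * (HahnSeries.C c₀) ^ (-a) with hκ
  have hκ0 : κ ≠ 0 := by
    rw [hκ, map_pow]
    exact mul_ne_zero (pow_ne_zero _ hC0) (zpow_ne_zero _ hC0)
  have h1 : kronNorm ℓ r * r ^ (-a) = κ * u ^ P := by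
    rw [hr, kronNorm_mul, Fermat.Agent.Ribet.H376.kronNorm_C, kronNorm_pow, mul_zpow, hκ, hu,
      mul_pow, ← zpow_natCast ((h : LaurentSeries k) ^ (-a)) P, ← zpow_mul,
      ← zpow_natCast (h : LaurentSeries k) P, ← zpow_mul, mul_comm (-a) (P : ℤ)]
    ring
  have hκC : ∃ d : k, d ≠ 0 ∧ κ = HahnSeries.C d := by
    refine ⟨c₀ ^ (ℓ + 1) * c₀ ^ (-a), mul_ne_zero (pow_ne_zero _ hc₀) (zpow_ne_zero _ hc₀), ?_⟩
    rw [hκ, map_mul, map_zpow₀]
  obtain ⟨d, hd, hκd⟩ := hκC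
  have h2 : u ^ P = HahnSeries.C (d⁻¹ * e) * ((w : LaurentSeries k) ^ p) ^ P := by
    have h3 : κ * u ^ P = HahnSeries.C e * (w : LaurentSeries k) ^ (P * p) := by
      rw [← h1, heq]
    rw [map_mul, map_inv₀, ← hκd, ← pow_mul, mul_comm p P, mul_assoc, ← h3, ← mul_assoc,
      inv_mul_cancel₀ hκ0, one_mul]
  obtain ⟨c', hc', hu'⟩ := h708_eq_C_mul_of_pow_eq (m := P) hP (u := u)
    (v := (w : LaurentSeries k) ^ p) (pow_ne_zero _ hw0) h2
  have hc'0 : c' ≠ 0 := by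
    rintro rfl
    rw [zero_pow hP] at hc'
    exact (mul_ne_zero (inv_ne_zero hd) he) hc'.symm
  refine ⟨c', w, hc'0, hw, ?_⟩
  have h4 : kronNorm ℓ (h : LaurentSeries k) = u * (h : LaurentSeries k) ^ a := by
    rw [hu, mul_assoc, ← zpow_add₀ hh0, neg_add_cancel, zpow_zero, mul_one]
  rw [h4, hu']
  ring

end Main

/-! ## The theorem -/

/-- **RED-CLASS at modulus `p ^ n`**, unconditional. -/
theorem redEigenQPow : RedEigenQPowStatement := by
  intro p q M' n _ _ _ hp hn hq hqM A hA S a x hx hxS heig hpx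
  obtain ⟨hac, -⟩ := Fermat.Agent.Ribet.H939.resField q hq A hA
  haveI := hac
  -- `p ^ n = P * p`
  obtain ⟨n', rfl⟩ : ∃ n', n = n' + 1 := ⟨n - 1, by omega⟩
  set P : ℕ := p ^ n' with hPdef
  have hP0 : P ≠ 0 := pow_ne_zero _ hp.ne_zero
  have hm : p ^ (n' + 1) = P * p := pow_succ p n'
  rw [hm] at hx hxS heig hpx
  -- a Kummer generator with slopes `0`
  obtain ⟨f, hfK, r₁, r₂, hr1, hr2, hP1, hP2⟩ := mem_finSetQ_of_mem_finPartQ hx
  -- `p • x ∈ 𝒮`: the reductions are `P`-th powers up to constants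
  have hpx' := mem_splitSetQ_of_mem_splitPartQ hpx
  obtain ⟨hI, hZ⟩ := pPow_of_mem_splitSetQ hq hqM hA hpx' (isKummerGen_pow hfK p)
  obtain ⟨d₁, h₁, hd1, hh1, e1⟩ := hI _ (I2.isRedInf_pow _ A hr1 p)
  obtain ⟨d₂, h₂, hd2, hh2, e2⟩ := hZ _ (isRedZero_pow' hr2 p)
  have hh1' : (h₁ : LaurentSeries (kA A)) ≠ 0 := fun e => hh1 (Subtype.ext e)
  have hh2' : (h₂ : LaurentSeries (kA A)) ≠ 0 := fun e => hh2 (Subtype.ext e)
  obtain ⟨c₁, hc1, hr1'⟩ := root_step hp.ne_zero hd1 hh1' e1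
  obtain ⟨c₂, hc2, hr2'⟩ := root_step hp.ne_zero hd2 hh2' e2
  -- not both `h_i` are `p`-th powers
  have hns : ¬ (PPowSeries p M' (h₁ : LaurentSeries (kA A)) ∧
      PPowSeries p M' (h₂ : LaurentSeries (kA A))) := by
    rintro ⟨⟨b₁, u₁, hb1, hu1, eu1⟩, ⟨b₂, u₂, hb2, hu2, eu2⟩⟩
    apply hxS
    refine AddSubgroup.subset_closure ⟨f, hfK, r₁, r₂, hr1, hr2, ?_, ?_⟩
    · refine ⟨c₁ * b₁ ^ P, u₁, mul_ne_zero hc1 (pow_ne_zero _ hb1), hu1, ?_⟩
      rw [hr1', eu1, mul_pow, ← pow_mul, mul_comm p P, map_mul, map_pow]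
      ring
    · refine ⟨c₂ * b₂ ^ P, u₂, mul_ne_zero hc2 (pow_ne_zero _ hb2), hu2, ?_⟩
      rw [hr2', eu2, mul_pow, ← pow_mul, mul_comm p P, map_mul, map_pow]
      ring
  -- the eigen-relations on reductions, both components
  have hE : ∀ (ℓ : ℕ) [NeZero ℓ], ℓ.Prime → ℓ ∉ S → ¬ ℓ ∣ q * M' →
      PPowSeries (P * p) M' (kronNorm ℓ r₁ * r₁ ^ (-(a ℓ))) ∧
      PPowSeries (P * p) M' (kronNorm ℓ r₂ * r₂ ^ (-(a ℓ))) := by
    intro ℓ _ hℓ hℓS hℓN
    have hy := mem_splitSetQ_of_mem_splitPartQ (heig ⟨ℓ, hℓ⟩ hℓS)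
    have hK : IsKummerGen (q * M') (P * p) (I2.hNorm (q * M') ℓ f * f ^ (-(a ℓ)))
        (heckeOperatorBar (q * M') ⟨ℓ, hℓ⟩ x - a ℓ • x) := by
      have h1 := I2.isKummerGen_mul _ _ (isKummerGen_hNorm hfK ℓ hℓ)
        (isKummerGen_zpow hfK (-(a ℓ)))
      rwa [neg_smul, ← sub_eq_add_neg] at h1
    obtain ⟨hI', hZ'⟩ := pPow_of_mem_splitSetQ hq hqM hA hy hK
    refine ⟨hI' _ ?_, hZ' _ ?_⟩
    · exact I2.isRedInf_mul _ A
        (Fermat.Agent.Ribet.H376.isRedInf_heckeNorm' (q * M') ℓ hℓ hℓN A hr1)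
        (I2.isRedInf_zpow _ A hr1 _)
    · show IsRedInf (q * M') A (wF (q * M') (I2.hNorm (q * M') ℓ f * f ^ (-(a ℓ)))) _
      rw [map_mul, map_zpow₀, ← Fermat.Agent.Ribet.H376.frickeHecke (q * M') ℓ hℓ hℓN f]
      exact I2.isRedInf_mul _ A
        (Fermat.Agent.Ribet.H376.isRedInf_heckeNorm' (q * M') ℓ hℓ hℓN A hr2)
        (I2.isRedInf_zpow _ A hr2 _)
  -- conclusion for one component
  have key : ∀ (r : LaurentSeries (kA A)) (h : modularFunctionFieldFullC (kA A) M') (c₀ : kA A),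
      PDivSeries (P * p) M' r → c₀ ≠ 0 → h ≠ 0 →
      r = HahnSeries.C c₀ * (h : LaurentSeries (kA A)) ^ P →
      ¬ PPowSeries p M' (h : LaurentSeries (kA A)) →
      (∀ (ℓ : ℕ) [NeZero ℓ], ℓ.Prime → ℓ ∉ S → ¬ ℓ ∣ q * M' →
        PPowSeries (P * p) M' (kronNorm ℓ r * r ^ (-(a ℓ)))) →
      ∃ (S' : Finset ℕ) (h : modularFunctionFieldFullC (kA A) M'),
        S ⊆ S' ∧ IsRedEigen p M' S' a h := by
    intro r h c₀ hPr hc₀ hh hr hnp hEr
    refine ⟨S ∪ (q * M').primeFactors, h, Finset.subset_union_left, hh, ?_, hnp, ?_⟩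
    · intro Q
      obtain ⟨h', hh'r, hh'0, hd⟩ := hPr
      have e : h' = algebraMap (kA A) (modularFunctionFieldFullC (kA A) M') c₀ * h ^ P := by
        apply Subtype.ext
        rw [hh'r, hr]
        show _ = algebraMap (kA A) (LaurentSeries (kA A)) c₀ * (h : LaurentSeries (kA A)) ^ P
        rw [algebraMap_laurentSeries_eq_single, HahnSeries.C_apply]
      have h1 := hd Q
      rw [e, Place.ord_mul Q (by
          rw [Ne, map_eq_zero]
          exact hc₀) (pow_ne_zero _ hh),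
        Fermat.Agent.Ribet.H801.ord_algebraMap_zero Q hc₀, zero_add,
        Fermat.Agent.Ribet.H801.ord_pow_nat] at h1
      have h2 : ((P : ℤ)) * (p : ℤ) ∣ (P : ℤ) * Q.ord h := by
        have : (((P * p : ℕ)) : ℤ) = (P : ℤ) * (p : ℤ) := by push_cast; ring
        rwa [this] at h1
      exact (mul_dvd_mul_iff_left (by exact_mod_cast hP0)).mp h2
    · intro ℓ _ hℓ hℓS'
      have hℓS : ℓ ∉ S := fun h0 => hℓS' (Finset.mem_union_left _ h0)
      have hℓN : ¬ ℓ ∣ q * M' := by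
        intro hd
        apply hℓS'
        refine Finset.mem_union_right _ ?_
        rw [Nat.mem_primeFactors]
        exact ⟨hℓ, hd, NeZero.ne _⟩
      exact kronEigen_of_pow hP0 hc₀ hh hr (hEr ℓ hℓ hℓS hℓN)
  by_cases hn1 : PPowSeries p M' (h₁ : LaurentSeries (kA A))
  · have hn2 : ¬ PPowSeries p M' (h₂ : LaurentSeries (kA A)) := fun h0 => hns ⟨hn1, h0⟩
    exact key r₂ h₂ c₂ hP2 hc2 hh2 hr2' hn2 (fun ℓ _ hℓ hℓS hℓN => (hE ℓ hℓ hℓS hℓN).2)
  · exact key r₁ h₁ c₁ hP1 hc1 hh1 hr1' hn1 (fun ℓ _ hℓ hℓS hℓN => (hE ℓ hℓ hℓS hℓN).1)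

/-- **(Q3-pow)** from EIGEN-LIFT (`H523.Q3.EigenLiftStatement`, modulus `p`). -/
theorem q3Pow_of (hEL : EigenLiftStatement) : Q3PowStatement := by
  intro p q M' n _ _ _ hp hp5 hn hq hq2 hqp hqM A hA S a x hx hxS _ heig hpx
  obtain ⟨S', h, hSS', hh⟩ := redEigenQPow p q M' n hp hn hq hqM A hA S a x hx hxS heig hpx
  obtain ⟨S'', hS'', hocc⟩ := hEL p q M' hp hp5 hq hq2 hqp hqM A hA S' a h hh
  exact ⟨S'', hSS'.trans hS'', Or.inl hocc⟩

/-- RED-CLASS of helper523's chain (`H523.Q3.RedEigenQStatement`) is the case `n = 1`. -/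
theorem redEigenQ_of_pow : RedEigenQStatement := by
  intro p q M' _ _ _ hp _ hq _ _ hqM A hA S a x hx hxS hnew heig
  have h1 := redEigenQPow p q M' 1 hp one_pos hq hqM A hA S a x
  rw [pow_one] at h1
  refine h1 hx hxS (fun ℓ hℓ => ?_) ?_
  · rw [heig ℓ hℓ, sub_self]
    exact (splitPartQ p q M' A).zero_mem
  · rw [hnew.1]
    exact (splitPartQ p q M' A).zero_mem

end Fermat.Agent.Ribet.H708.Q3Pow

end
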